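import Fermat.Agent.S52.H621.ManinCard

/-!
# Manin's count, abstract form (helper472)

`p` prime, `N ∈ 𝔽_p[X]` of degree `2p + 1`, `n : 𝔽_p → {0, 1, 2}` such that for every `c ∈ 𝔽_p`
* `n c = 2 → N(c) ≠ 0`,
* `n c = 1 → N(c) = 0 ∧ N'(c) ≠ 0`,
* `n c = 0 → N(c) = 0 ∧ N'(c) = 0`.
Then the rational function `N / (X^p - X)²` has degree `1 + ∑_c n c`
(`ratDeg_eq_of_local`).  This is the local analysis behind `#E(𝔽_p) = deg x(Φ P₀ - P₀)`.
-/

set_option autoImplicit false
set_option linter.unusedSectionVars false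
set_option linter.unusedVariables false

open Polynomial

namespace Fermat.Agent.Lib.Frob23

open Fermat.Agent.S52

section Count

variable (p : ℕ) [Fact p.Prime] (N : (ZMod p)[X]) (n : ZMod p → ℕ)

/-- the common factor of numerator and denominator -/
noncomputable def cancelPoly : (ZMod p)[X] := ∏ c : ZMod p, (X - C c) ^ (2 - n c)

/-- the reduced denominator -/
noncomputable def redDen : (ZMod p)[X] := ∏ c : ZMod p, (X - C c) ^ n c

theorem den_eq (hn : ∀ c, n c ≤ 2) :
    ((X : (ZMod p)[X]) ^ p - X) ^ 2 = cancelPoly p n * redDen p n := by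
  rw [H621.X_pow_sub_X_eq_prod, ← Finset.prod_pow, cancelPoly, redDen,
    ← Finset.prod_mul_distrib]
  refine Finset.prod_congr rfl fun c _ => ?_
  rw [← pow_add, Nat.sub_add_cancel (hn c)]

theorem cancelPoly_monic : (cancelPoly p n).Monic :=
  monic_prod_of_monic _ _ fun c _ => (monic_X_sub_C c).pow _

theorem redDen_monic : (redDen p n).Monic :=
  monic_prod_of_monic _ _ fun c _ => (monic_X_sub_C c).pow _

theorem natDegree_cancelPoly : (cancelPoly p n).natDegree = ∑ c : ZMod p, (2 - n c) := by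
  rw [cancelPoly, natDegree_prod_of_monic _ _ fun c _ => (monic_X_sub_C c).pow _]
  refine Finset.sum_congr rfl fun c _ => ?_
  rw [natDegree_pow, natDegree_X_sub_C, mul_one]

theorem natDegree_redDen : (redDen p n).natDegree = ∑ c : ZMod p, n c := by
  rw [redDen, natDegree_prod_of_monic _ _ fun c _ => (monic_X_sub_C c).pow _]
  refine Finset.sum_congr rfl fun c _ => ?_
  rw [natDegree_pow, natDegree_X_sub_C, mul_one]

theorem eval_cancelPoly_eq_zero (c : ZMod p) (hc : 2 - n c ≠ 0) :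
    (cancelPoly p n).eval c = 0 := by
  rw [cancelPoly, eval_prod]
  refine Finset.prod_eq_zero (Finset.mem_univ c) ?_
  rw [eval_pow, eval_sub, eval_X, eval_C, sub_self, zero_pow hc]

/-- a double root from the vanishing of the value and of the derivative -/
theorem sq_dvd_of_eval_eq_zero {c : ZMod p} (h : N.eval c = 0)
    (h' : (derivative N).eval c = 0) : (X - C c) ^ 2 ∣ N := by
  obtain ⟨N₁, rfl⟩ := dvd_iff_isRoot.mpr h
  have h1 : N₁.eval c = 0 := by
    rw [derivative_mul, eval_add, eval_mul, eval_mul, eval_sub, eval_X, eval_C, sub_self,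
      zero_mul, add_zero, derivative_sub, derivative_X, derivative_C, sub_zero, eval_one,
      one_mul] at h'
    exact h'
  obtain ⟨N₂, rfl⟩ := dvd_iff_isRoot.mpr h1
  exact ⟨N₂, by ring⟩

variable {p N n}

theorem pow_dvd_of_local
    (h1 : ∀ c, n c = 1 → N.eval c = 0 ∧ (derivative N).eval c ≠ 0)
    (h0 : ∀ c, n c = 0 → N.eval c = 0 ∧ (derivative N).eval c = 0) (c : ZMod p) :
    (X - C c) ^ (2 - n c) ∣ N := by
  rcases Nat.lt_or_ge (n c) 2 with hlt | hge
  · interval_cases hc : n c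
    · exact sq_dvd_of_eval_eq_zero p N (h0 c hc).1 (h0 c hc).2
    · rw [pow_one]
      exact dvd_iff_isRoot.mpr (h1 c hc).1
  · have : 2 - n c = 0 := by omega
    rw [this, pow_zero]
    exact one_dvd _

theorem cancelPoly_dvd
    (h1 : ∀ c, n c = 1 → N.eval c = 0 ∧ (derivative N).eval c ≠ 0)
    (h0 : ∀ c, n c = 0 → N.eval c = 0 ∧ (derivative N).eval c = 0) :
    cancelPoly p n ∣ N := by
  unfold cancelPoly
  refine Finset.prod_dvd_of_coprime ?_ fun c _ => pow_dvd_of_local h1 h0 c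
  intro c _ c' _ hcc'
  exact (pairwise_coprime_X_sub_C (K := ZMod p) (s := id) Function.injective_id hcc').pow

theorem eval_redNum_ne_zero (hn : ∀ c, n c ≤ 2)
    (h2 : ∀ c, n c = 2 → N.eval c ≠ 0)
    (h1 : ∀ c, n c = 1 → N.eval c = 0 ∧ (derivative N).eval c ≠ 0)
    (N' : (ZMod p)[X]) (hN' : N = cancelPoly p n * N') (c : ZMod p) (hc : n c ≠ 0) :
    N'.eval c ≠ 0 := by
  intro h0
  have hle := hn c
  interval_cases hnc : n c
  · exact hc rfl
  · have he : 2 - n c ≠ 0 := by omega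
    have h := (h1 c hnc).2
    rw [hN', derivative_mul, eval_add, eval_mul, eval_mul, h0, mul_zero, zero_add,
      eval_cancelPoly_eq_zero p n c he, zero_mul] at h
    exact h rfl
  · have h := h2 c hnc
    rw [hN', eval_mul, h0, mul_zero] at h
    exact h rfl

theorem isCoprime_redNum_redDen (hn : ∀ c, n c ≤ 2)
    (h2 : ∀ c, n c = 2 → N.eval c ≠ 0)
    (h1 : ∀ c, n c = 1 → N.eval c = 0 ∧ (derivative N).eval c ≠ 0)
    (N' : (ZMod p)[X]) (hN' : N = cancelPoly p n * N') :
    IsCoprime N' (redDen p n) := by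
  unfold redDen
  refine IsCoprime.prod_right fun c _ => ?_
  by_cases hc : n c = 0
  · rw [hc, pow_zero]
    exact isCoprime_one_right
  · refine IsCoprime.pow_right ?_
    refine ((irreducible_X_sub_C c).coprime_iff_not_dvd.mpr ?_).symm
    rw [dvd_iff_isRoot]
    exact eval_redNum_ne_zero hn h2 h1 N' hN' c hc

/-- **Manin's count, abstract form.** -/
theorem ratDeg_eq_of_local (hdeg : N.natDegree = 2 * p + 1) (hn : ∀ c, n c ≤ 2)
    (h2 : ∀ c, n c = 2 → N.eval c ≠ 0)
    (h1 : ∀ c, n c = 1 → N.eval c = 0 ∧ (derivative N).eval c ≠ 0)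
    (h0 : ∀ c, n c = 0 → N.eval c = 0 ∧ (derivative N).eval c = 0) :
    H621.ratDeg (algebraMap (ZMod p)[X] (RatFunc (ZMod p)) N
        / algebraMap (ZMod p)[X] (RatFunc (ZMod p)) ((X ^ p - X) ^ 2))
      = 1 + ∑ c : ZMod p, n c := by
  obtain ⟨N', hN'⟩ := cancelPoly_dvd h1 h0
  have hDen : ((X : (ZMod p)[X]) ^ p - X) ^ 2 ≠ 0 := by
    rw [den_eq p n hn]
    exact mul_ne_zero (cancelPoly_monic p n).ne_zero (redDen_monic p n).ne_zero
  have hcop := isCoprime_redNum_redDen hn h2 h1 N' hN'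
  rw [H621.ratDeg_div_of_eq_mul _ _ (cancelPoly p n) N' (redDen p n) hDen hN'
    (den_eq p n hn) hcop]
  have hN0 : N' ≠ 0 := by
    rintro rfl
    rw [mul_zero] at hN'
    rw [hN', natDegree_zero] at hdeg
    omega
  have hdN : (cancelPoly p n).natDegree + N'.natDegree = 2 * p + 1 := by
    rw [← natDegree_mul (cancelPoly_monic p n).ne_zero hN0, ← hN', hdeg]
  have hdD : (cancelPoly p n).natDegree + (redDen p n).natDegree = 2 * p := by
    rw [← natDegree_mul (cancelPoly_monic p n).ne_zero (redDen_monic p n).ne_zero,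
      ← den_eq p n hn, natDegree_pow,
      FiniteField.X_pow_card_sub_X_natDegree_eq _ (Fact.out : p.Prime).one_lt]
  rw [← natDegree_redDen]
  omega

end Count

section Card

variable (p : ℕ) [Fact p.Prime]

/-- `#E(𝔽_p) = 1 + ∑_c #{y | (c, y) ∈ E}` -/
theorem card_eq_sum (W : WeierstrassCurve (ZMod p)) (hΔ : W.Δ ≠ 0) :
    W.card = 1 + ∑ c : ZMod p, (Finset.univ.filter fun y : ZMod p =>
        y ^ 2 + W.a₁ * c * y + W.a₃ * y = c ^ 3 + W.a₂ * c ^ 2 + W.a₄ * c + W.a₆).card := by
  classical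
  rw [WeierstrassCurve.card, H621.card_point_eq _ hΔ, add_comm]
  congr 1
  rw [Nat.card_congr (Equiv.subtypeEquivRight fun q : ZMod p × ZMod p =>
    WeierstrassCurve.Affine.equation_iff (W := W.toAffine) q.1 q.2),
    Nat.card_eq_fintype_card, Fintype.card_subtype, Finset.card_filter, Fintype.sum_prod_type]
  refine Finset.sum_congr rfl fun c _ => ?_
  rw [← Finset.card_filter]

end Card

end Fermat.Agent.Lib.Frob23
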