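import Fermat.Agent.Lib.FrobRel.H230Frob
import Fermat.Agent.S52.H311.Height
import Fermat.Agent.S52.H621.RatDegComp

/-!
# The hyperelliptic involution of the function field of a Weierstrass curve (helper472)

`F` a field, `W` a Weierstrass curve over `F` with `Δ ≠ 0` (ANY characteristic, long Weierstrass
form), `KK W` its function field, `P₀ = (gx, gy)` the generic point.

* `invol W : KK W →ₐ[F] KK W` : the `F`-algebra endomorphism with `gx ↦ gx`, `gy ↦ negY gx gy`.
* `iR W : RatFunc F →ₐ[F] KK W` : the embedding of `F(X)`, `X ↦ gx`.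
* `exists_iR_eq_of_invol_eq` : the fixed field of `invol` is `F(X)`.
* `antiSub W` : the subgroup of `W(KK W)` of points `P` with `invol P = -P` ("odd morphisms");
  it contains the generic point and all its points have `x`-coordinate in `F(X)`
  (`exists_isXRep_of_mem_antiSub`), so that the exact degree height `H311.hgt` satisfies the
  parallelogram law on it (`hgt_parallelogram`).
-/

set_option autoImplicit false

open WeierstrassCurve Polynomial
open scoped Polynomial.Bivariate WeierstrassCurve.Affine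

namespace Fermat.Agent.Lib.Frob23

open Fermat.Agent.Lib.FrobRel Fermat.Agent.S52

universe u

variable {F : Type u} [Field F] (W : WeierstrassCurve F)

/-- the function field of `W` over `F` -/
abbrev KK : Type u := H230.FF W F

/-- the embedding `F[X] → KK W` -/
noncomputable def jX : F[X] →ₐ[F] KK W :=
  (IsScalarTower.toAlgHom F F[X] (KK W))

lemma jX_apply (a : F[X]) : jX W a = algebraMap F[X] (KK W) a := rfl

lemma jX_injective : Function.Injective (jX W) := H230.algebraMap_poly_FF_injective W F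

lemma jX_X : jX W X = H230.gx W F := (H230.gx_eq_algebraMap_X W F).symm

lemma jX_eq_aeval (a : F[X]) : jX W a = aeval (H230.gx W F) a := by
  have h : jX W = aeval (H230.gx W F) := by
    apply Polynomial.algHom_ext
    rw [jX_X, aeval_X]
  rw [h]

/-- the embedding `F(X) → KK W` -/
noncomputable def iR : RatFunc F →ₐ[F] KK W :=
  IsFractionRing.liftAlgHom (g := jX W) (jX_injective W)

lemma iR_algebraMap (a : F[X]) : iR W (algebraMap F[X] (RatFunc F) a) = jX W a := by
  rw [iR, IsFractionRing.liftAlgHom_apply, IsFractionRing.lift_algebraMap]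
  rfl

lemma iR_injective : Function.Injective (iR W) := (iR W).toRingHom.injective

lemma iR_X : iR W RatFunc.X = H230.gx W F := by
  rw [← RatFunc.algebraMap_X, iR_algebraMap, jX_X]

lemma iR_C (c : F) : iR W (RatFunc.C c) = algebraMap F (KK W) c := by
  rw [← RatFunc.algebraMap_eq_C, (iR W).commutes]

lemma jX_eq_iR (a : F[X]) : jX W a = iR W (H621.toRatFuncAlgHom F a) :=
  (iR_algebraMap W a).symm

/-! ### The involution -/

section Invol

/-- the polynomial `a₁ X + a₃` -/
noncomputable def linP : F[X] := C W.a₁ * X + C W.a₃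

/-- the cubic `X³ + a₂ X² + a₄ X + a₆` -/
noncomputable def cubP : F[X] := X ^ 3 + C W.a₂ * X ^ 2 + C W.a₄ * X + C W.a₆

lemma bc_a₁ (K : Type*) [Field K] [Algebra F K] : (W⁄K).a₁ = algebraMap F K W.a₁ := rfl
lemma bc_a₂ (K : Type*) [Field K] [Algebra F K] : (W⁄K).a₂ = algebraMap F K W.a₂ := rfl
lemma bc_a₃ (K : Type*) [Field K] [Algebra F K] : (W⁄K).a₃ = algebraMap F K W.a₃ := rfl
lemma bc_a₄ (K : Type*) [Field K] [Algebra F K] : (W⁄K).a₄ = algebraMap F K W.a₄ := rfl
lemma bc_a₆ (K : Type*) [Field K] [Algebra F K] : (W⁄K).a₆ = algebraMap F K W.a₆ := rfl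

lemma jX_C (c : F) : jX W (C c) = algebraMap F (KK W) c := by
  rw [Polynomial.C_eq_algebraMap, (jX W).commutes]

lemma jX_linP : jX W (linP W) = (W⁄(KK W)).a₁ * H230.gx W F + (W⁄(KK W)).a₃ := by
  rw [linP, map_add, map_mul, jX_C, jX_C, jX_X, bc_a₁, bc_a₃]

lemma jX_cubP : jX W (cubP W) = H230.gx W F ^ 3 + (W⁄(KK W)).a₂ * H230.gx W F ^ 2
    + (W⁄(KK W)).a₄ * H230.gx W F + (W⁄(KK W)).a₆ := by
  rw [cubP, map_add, map_add, map_add, map_mul, map_mul, map_pow, map_pow, jX_C, jX_C, jX_C,
    jX_X, bc_a₂, bc_a₄, bc_a₆]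

/-- the Weierstrass equation of the generic point, `y² + L y = g` -/
lemma gy_sq : H230.gy W F ^ 2 + jX W (linP W) * H230.gy W F = jX W (cubP W) := by
  have h := (Affine.equation_iff _ _).mp (H230.generic_equation W F)
  rw [jX_linP, jX_cubP]
  linear_combination h

lemma neg_generic_equation :
    (W⁄(KK W)).Equation (H230.gx W F) ((W⁄(KK W)).negY (H230.gx W F) (H230.gy W F)) :=
  (Affine.equation_neg _ _).mpr (H230.generic_equation W F)

/-- **The hyperelliptic involution** of the function field. -/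
noncomputable def invol : KK W →ₐ[F] KK W :=
  H230.sigma F (neg_generic_equation W) (H230.gx_transcendental W F)

lemma invol_gx : invol W (H230.gx W F) = H230.gx W F := H230.sigma_gx F _ _

lemma invol_gy : invol W (H230.gy W F) = -H230.gy W F - jX W (linP W) := by
  rw [invol, H230.sigma_gy, Affine.negY, jX_linP]
  ring

lemma invol_jX (a : F[X]) : invol W (jX W a) = jX W a := by
  rw [jX_eq_aeval, ← Polynomial.aeval_algHom_apply, invol_gx]

lemma invol_iR (u : RatFunc F) : invol W (iR W u) = iR W u := by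
  conv_lhs => rw [← RatFunc.num_div_denom u]
  conv_rhs => rw [← RatFunc.num_div_denom u]
  rw [map_div₀, map_div₀, iR_algebraMap, iR_algebraMap, invol_jX, invol_jX]

lemma iR_div (a b : F[X]) :
    iR W (algebraMap F[X] (RatFunc F) a / algebraMap F[X] (RatFunc F) b) = jX W a / jX W b := by
  rw [map_div₀, iR_algebraMap, iR_algebraMap]

/-- `2 y + a₁ x + a₃ ≠ 0` in the function field -/
lemma two_gy_add_ne_zero (hΔ : W.Δ ≠ 0) : 2 * H230.gy W F + jX W (linP W) ≠ 0 := by
  intro h
  have h1 : algebraMap (H230.CR W F) (KK W)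
      ((linP W) • (1 : H230.CR W F) + (2 : F[X]) • Affine.CoordinateRing.mk (W⁄F) Y) = 0 := by
    rw [map_add, Affine.CoordinateRing.smul, Affine.CoordinateRing.smul, map_mul, map_mul,
      map_one, mul_one]
    have e1 : algebraMap (H230.CR W F) (KK W) (Affine.CoordinateRing.mk (W⁄F) (C (linP W)))
        = jX W (linP W) := by
      rw [jX_apply, IsScalarTower.algebraMap_apply F[X] (H230.CR W F) (KK W)]
      rfl
    have e2 : algebraMap (H230.CR W F) (KK W) (Affine.CoordinateRing.mk (W⁄F) (C (2 : F[X])))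
        = 2 := by
      have : (Affine.CoordinateRing.mk (W⁄F) (C (2 : F[X]))) = 2 := by
        rw [map_ofNat, map_ofNat]
      rw [this, map_ofNat]
    have e3 : algebraMap (H230.CR W F) (KK W) (Affine.CoordinateRing.mk (W⁄F) Y)
        = H230.gy W F := rfl
    rw [e1, e2, e3]
    linear_combination h
  have h2 := (IsFractionRing.injective (H230.CR W F) (KK W)) (h1.trans (map_zero _).symm)
  obtain ⟨hl, h2'⟩ := Affine.CoordinateRing.smul_basis_eq_zero h2
  have ha1 : W.a₁ = 0 := by
    have := congrArg (fun p : F[X] => p.coeff 1) hl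
    simpa [linP] using this
  have ha3 : W.a₃ = 0 := by
    have := congrArg (fun p : F[X] => p.coeff 0) hl
    simpa [linP] using this
  have h2F : (2 : F) = 0 := by
    have := congrArg (fun p : F[X] => p.coeff 0) h2'
    simpa using this
  apply hΔ
  simp only [WeierstrassCurve.Δ, WeierstrassCurve.b₂, WeierstrassCurve.b₄, WeierstrassCurve.b₆,
    WeierstrassCurve.b₈, ha1, ha3]
  linear_combination (-8 * W.a₂ ^ 2 * (4 * W.a₂ * W.a₆ - W.a₄ ^ 2) - 32 * W.a₄ ^ 3
    - 216 * W.a₆ ^ 2 + 144 * W.a₂ * W.a₄ * W.a₆) * h2F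

/-- every element of the function field is `α + β y` with `α, β ∈ F(X)` -/
lemma exists_eq_add_mul_gy (z : KK W) :
    ∃ α β : RatFunc F, z = iR W α + iR W β * H230.gy W F := by
  obtain ⟨p, q, hq, rfl⟩ := IsFractionRing.div_surjective (A := H230.CR W F) z
  obtain ⟨p₁, p₂, rfl⟩ := Affine.CoordinateRing.exists_smul_basis_eq p
  obtain ⟨q₁, q₂, rfl⟩ := Affine.CoordinateRing.exists_smul_basis_eq q
  have hmap : ∀ a b : F[X], algebraMap (H230.CR W F) (KK W)
      (a • (1 : H230.CR W F) + b • Affine.CoordinateRing.mk (W⁄F) Y)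
        = jX W a + jX W b * H230.gy W F := by
    intro a b
    rw [map_add, Affine.CoordinateRing.smul, Affine.CoordinateRing.smul, map_mul, map_mul,
      map_one, mul_one]
    have e : ∀ c : F[X], algebraMap (H230.CR W F) (KK W) (Affine.CoordinateRing.mk (W⁄F) (C c))
        = jX W c := by
      intro c
      rw [jX_apply, IsScalarTower.algebraMap_apply F[X] (H230.CR W F) (KK W)]
      rfl
    rw [e, e]
    rfl
  rw [hmap, hmap]
  have hQ : jX W q₁ + jX W q₂ * H230.gy W F ≠ 0 := by
    rw [← hmap]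
    exact IsFractionRing.to_map_ne_zero_of_mem_nonZeroDivisors hq
  have hQ' : jX W q₁ + jX W q₂ * (-H230.gy W F - jX W (linP W)) ≠ 0 := by
    have := (map_ne_zero_iff (invol W) (invol W).toRingHom.injective).mpr hQ
    rwa [map_add, map_mul, invol_jX, invol_jX, invol_gy] at this
  set n₀ : F[X] := q₁ ^ 2 - q₁ * q₂ * linP W - q₂ ^ 2 * cubP W with hn₀
  have hn : jX W n₀ = (jX W q₁ + jX W q₂ * H230.gy W F)
      * (jX W q₁ + jX W q₂ * (-H230.gy W F - jX W (linP W))) := by
    rw [hn₀, map_sub, map_sub, map_mul, map_mul, map_mul, map_pow, map_pow, ← gy_sq]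
    ring
  have hn0 : jX W n₀ ≠ 0 := by rw [hn]; exact mul_ne_zero hQ hQ'
  refine ⟨algebraMap F[X] (RatFunc F) (p₁ * q₁ - p₁ * q₂ * linP W - p₂ * q₂ * cubP W)
      / algebraMap F[X] (RatFunc F) n₀,
    algebraMap F[X] (RatFunc F) (p₂ * q₁ - p₁ * q₂) / algebraMap F[X] (RatFunc F) n₀, ?_⟩
  have key : (jX W p₁ + jX W p₂ * H230.gy W F)
      * (jX W q₁ + jX W q₂ * (-H230.gy W F - jX W (linP W)))
      = jX W (p₁ * q₁ - p₁ * q₂ * linP W - p₂ * q₂ * cubP W)
        + jX W (p₂ * q₁ - p₁ * q₂) * H230.gy W F := by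
    simp only [map_sub, map_mul, ← gy_sq]
    ring
  rw [iR_div, iR_div, div_mul_eq_mul_div, ← add_div, ← key, hn]
  field_simp

/-- **The fixed field of the hyperelliptic involution is `F(X)`.** -/
theorem exists_iR_eq_of_invol_eq (hΔ : W.Δ ≠ 0) (z : KK W) (hz : invol W z = z) :
    ∃ u : RatFunc F, iR W u = z := by
  obtain ⟨α, β, rfl⟩ := exists_eq_add_mul_gy W z
  rw [map_add, map_mul, invol_iR, invol_iR, invol_gy] at hz
  have h0 : iR W β * (2 * H230.gy W F + jX W (linP W)) = 0 := by linear_combination -hz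
  rcases mul_eq_zero.mp h0 with h | h
  · exact ⟨α, by rw [h, zero_mul, add_zero]⟩
  · exact absurd h (two_gy_add_ne_zero W hΔ)

end Invol

end Fermat.Agent.Lib.Frob23
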