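import Fermat.Agent.Lib.Frob23.ManinSub
import Fermat.Agent.Lib.Frob23.Count
import Fermat.Agent.Lib.Frob.Interfaces

/-!
# The Hasse-Weil Frobenius relation over `𝔽_3` (helper472; generated by `gen_small.py`)

For every Weierstrass curve `E` over `ZMod 3` with `Δ ≠ 0` (long Weierstrass form) and every field
`k ⊇ 𝔽_3`:  `Φ² - a Φ + 3 = 0` on `E(k)`, `a = 3 + 1 - #E(𝔽_3)`  (`frobRelationFin_three`).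

Manin data: `s = linP W ^ 2 + cubP W + 1`, `t = linP W - linP W * cubP W` (`L = a₁ X + a₃`, `g = X³ + a₂ X² + a₄ X + a₆`).
-/

set_option autoImplicit false
set_option linter.unusedSectionVars false
set_option linter.unusedVariables false
set_option linter.unusedSimpArgs false

open WeierstrassCurve Polynomial
open scoped Polynomial.Bivariate WeierstrassCurve.Affine

namespace Fermat.Agent.Lib.Frob23.Three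

open Fermat.Agent.Lib.FrobRel Fermat.Agent.S52 Fermat.Agent.Lib.Frob23

variable (W : WeierstrassCurve (ZMod 3))

/-- the Manin datum `s` -/
noncomputable def sP : (ZMod 3)[X] := linP W ^ 2 + cubP W + 1

/-- the Manin datum `t` -/
noncomputable def tP : (ZMod 3)[X] := linP W - linP W * cubP W

/-- the expanded numerator of Manin's function -/
noncomputable def nExp : (ZMod 3)[X] := X ^ 7 + 2 * X ^ 6 + X ^ 5 + X ^ 5 * C W.a₂ + X ^ 5 * C W.a₁ ^ 2 + X ^ 4 * C W.a₄ + 2 * X ^ 4 * C W.a₂ + 2 * X ^ 4 * C W.a₂ ^ 2 + 2 * X ^ 4 * C W.a₁ * C W.a₃ + X ^ 4 * C W.a₁ ^ 2 + X ^ 4 * C W.a₁ ^ 2 * C W.a₂ + X ^ 3 * C W.a₆ + X ^ 3 * C W.a₄ + X ^ 3 * C W.a₃ ^ 2 + X ^ 3 * C W.a₂ * C W.a₄ + X ^ 3 * C W.a₁ * C W.a₃ + 2 * X ^ 3 * C W.a₁ * C W.a₂ * C W.a₃ + X ^ 3 * C W.a₁ ^ 2 * C W.a₄ + 2 * X ^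 2 * C W.a₄ ^ 2 + X ^ 2 * C W.a₂ * C W.a₆ + X ^ 2 * C W.a₂ * C W.a₃ ^ 2 + 2 * X ^ 2 * C W.a₁ * C W.a₃ * C W.a₄ + X ^ 2 * C W.a₁ ^ 2 * C W.a₆ + X * C W.a₄ + X * C W.a₄ * C W.a₆ + X * C W.a₃ ^ 2 * C W.a₄ + X * C W.a₁ * C W.a₃ + 2 * X * C W.a₁ * C W.a₃ * C W.a₆ + 2 * C W.a₆ + 2 * C W.a₆ ^ 2 + C W.a₃ ^ 2 + C W.a₃ ^ 2 * C W.a₆

/-- the lower part of the expanded numerator -/
noncomputable def nLow : (ZMod 3)[X] := 2 * X ^ 6 + X ^ 5 + X ^ 5 * C W.a₂ + X ^ 5 * C W.a₁ ^ 2 + X ^ 4 * C W.a₄ + 2 * X ^ 4 * C W.a₂ + 2 * X ^ 4 * C W.a₂ ^ 2 + 2 * X ^ 4 * C W.a₁ * C W.a₃ + X ^ 4 * C W.a₁ ^ 2 + X ^ 4 * C W.a₁ ^ 2 * C W.a₂ + X ^ 3 * C W.a₆ + X ^ 3 * C W.a₄ + X ^ 3 * C W.a₃ ^ 2 + X ^ 3 * C W.a₂ * C W.a₄ + X ^ 3 * C W.a₁ * C W.a₃ + 2 * X ^ 3 * C W.a₁ * C W.a₂ * C W.a₃ + X ^ 3 * C W.a₁ ^ 2 *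 C W.a₄ + 2 * X ^ 2 * C W.a₄ ^ 2 + X ^ 2 * C W.a₂ * C W.a₆ + X ^ 2 * C W.a₂ * C W.a₃ ^ 2 + 2 * X ^ 2 * C W.a₁ * C W.a₃ * C W.a₄ + X ^ 2 * C W.a₁ ^ 2 * C W.a₆ + X * C W.a₄ + X * C W.a₄ * C W.a₆ + X * C W.a₃ ^ 2 * C W.a₄ + X * C W.a₁ * C W.a₃ + 2 * X * C W.a₁ * C W.a₃ * C W.a₆ + 2 * C W.a₆ + 2 * C W.a₆ ^ 2 + C W.a₃ ^ 2 + C W.a₃ ^ 2 * C W.a₆

lemma char_poly : ((3 : ℕ) : (ZMod 3)[X]) = 0 := CharP.cast_eq_zero _ _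

lemma C_pow_card (a : ZMod 3) : (C a : (ZMod 3)[X]) ^ 3 = C a := by
  rw [← C_pow, ZMod.pow_card]

theorem isManinData [DecidableEq (KK W)] : IsManinData W (sP W) (tP W) where
  pow_eq := by
    intro U V h
    have hE := (Affine.equation_iff _ _).mp h
    rw [ZMod.card]
    simp only [sP, tP, linP, cubP, map_add, map_sub, map_mul, map_pow, map_one, aeval_X, aeval_C]
    rw [← bc_a₁ W (KK W), ← bc_a₂ W (KK W), ← bc_a₃ W (KK W), ← bc_a₄ W (KK W),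
      ← bc_a₆ W (KK W)]
    linear_combination (V - ((W⁄(KK W)).a₁ * U + (W⁄(KK W)).a₃)) * hE
  trace_eq := by
    have hl : ((3 : ℕ) : (ZMod 3)[X]) = 0 := char_poly
    have hA1 := C_pow_card W.a₁
    have hA2 := C_pow_card W.a₂
    have hA3 := C_pow_card W.a₃
    have hA4 := C_pow_card W.a₄
    have hA6 := C_pow_card W.a₆
    rw [ZMod.card]
    simp only [sP, tP, linP, cubP]
    push_cast at hl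
    linear_combination (exp := 1) (-X ^ 4 * C W.a₁ - X ^ 3 * C W.a₃ - X ^ 3 * C W.a₁ * C W.a₂ - X ^ 2 * C W.a₂ * C W.a₃ - X ^ 2 * C W.a₁ * C W.a₄ - X ^ 2 * C W.a₁ ^ 2 * C W.a₃ - X * C W.a₃ * C W.a₄ - X * C W.a₁ * C W.a₆ - X * C W.a₁ * C W.a₃ ^ 2 - C W.a₃ * C W.a₆) * hl + (-X ^ 3) * hA1 + (-1) * hA3

theorem maninN_eq : maninN W (sP W) (tP W) = nExp W := by
  have hl : ((3 : ℕ) : (ZMod 3)[X]) = 0 := char_poly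
  have hA1 := C_pow_card W.a₁
  have hA2 := C_pow_card W.a₂
  have hA3 := C_pow_card W.a₃
  have hA4 := C_pow_card W.a₄
  have hA6 := C_pow_card W.a₆
  rw [maninN, ZMod.card]
  simp only [sP, tP, linP, cubP, nExp]
  push_cast at hl
  linear_combination (exp := 1) (X ^ 8 * C W.a₂ + X ^ 7 * C W.a₄ + X ^ 7 * C W.a₂ ^ 2 + X ^ 6 * C W.a₆ + 2 * X ^ 6 * C W.a₂ * C W.a₄ + X ^ 5 * C W.a₄ ^ 2 + X ^ 5 * C W.a₂ + 2 * X ^ 5 * C W.a₂ * C W.a₆ + X ^ 5 * C W.a₂ ^ 2 * C W.a₄ + X ^ 5 * C W.a₁ ^ 2 + X ^ 4 * C W.a₄ + 2 * X ^ 4 * C W.a₄ * C W.a₆ + X ^ 4 * C W.a₂ * C W.a₄ ^ 2 + X ^ 4 * C W.a₂ ^ 2 * C W.a₆ + 2 * X ^ 4 * C W.a₁ * C W.a₃ + X ^ 4 * C W.a₁ ^ 2 * C W.a₂ + X ^ 3 * C W.a₆ + X ^ 3 * C W.a₆ ^ 2 + X ^ 3 * C W.a₃ ^ 2 + X ^ 3 * C W.a₂ * C W.a₄ + 2 * X ^ 3 * C W.a₂ * C W.a₄ * C W.a₆ + X ^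 3 * C W.a₁ * C W.a₃ + 2 * X ^ 3 * C W.a₁ * C W.a₂ * C W.a₃ + X ^ 3 * C W.a₁ ^ 2 * C W.a₄ + X ^ 2 * C W.a₄ ^ 2 * C W.a₆ + X ^ 2 * C W.a₂ * C W.a₆ + X ^ 2 * C W.a₂ * C W.a₆ ^ 2 + X ^ 2 * C W.a₂ * C W.a₃ ^ 2 + 2 * X ^ 2 * C W.a₁ * C W.a₃ * C W.a₄ + X ^ 2 * C W.a₁ ^ 2 * C W.a₆ + 2 * X ^ 2 * C W.a₁ ^ 2 * C W.a₃ ^ 2 + X * C W.a₄ * C W.a₆ + X * C W.a₄ * C W.a₆ ^ 2 + X * C W.a₃ ^ 2 * C W.a₄ + X * C W.a₁ * C W.a₃ + 2 * X * C W.a₁ * C W.a₃ * C W.a₆ + C W.a₃ ^ 2 * C W.a₆) * hl + (X ^ 4 * C W.a₁ + 4 * X ^ 3 * C W.a₃) * hA1 + (X ^ 6) * hA2 + (4 * X * C W.a₁ + C W.a₃) * hA3 + (X ^ 3) * hA4 + (1) * hA6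

theorem nExp_eq : nExp W = X ^ 7 + nLow W := by
  simp only [nExp, nLow]
  ring

theorem natDegree_nLow : (nLow W).natDegree < 7 := by
  have : (nLow W).natDegree ≤ 6 := by
    unfold nLow
    compute_degree
  omega

theorem natDegree_maninN : (maninN W (sP W) (tP W)).natDegree = 2 * 3 + 1 := by
  rw [maninN_eq, nExp_eq, natDegree_add_eq_left_of_natDegree_lt (by
    rw [natDegree_X_pow]; exact natDegree_nLow W), natDegree_X_pow]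

/-- value of the numerator at `c` -/
def nVal (a₁ a₂ a₃ a₄ a₆ c : ZMod 3) : ZMod 3 := c ^ 7 + 2 * c ^ 6 + c ^ 5 + c ^ 5 * a₂ + c ^ 5 * a₁ ^ 2 + c ^ 4 * a₄ + 2 * c ^ 4 * a₂ + 2 * c ^ 4 * a₂ ^ 2 + 2 * c ^ 4 * a₁ * a₃ + c ^ 4 * a₁ ^ 2 + c ^ 4 * a₁ ^ 2 * a₂ + c ^ 3 * a₆ + c ^ 3 * a₄ + c ^ 3 * a₃ ^ 2 + c ^ 3 * a₂ * a₄ + c ^ 3 * a₁ * a₃ + 2 * c ^ 3 * a₁ * a₂ * a₃ + c ^ 3 * a₁ ^ 2 * a₄ + 2 * c ^ 2 * a₄ ^ 2 + c ^ 2 * a₂ * a₆ + c ^ 2 * a₂ * a₃ ^ 2 + 2 * c ^ 2 * a₁ * a₃ * a₄ + c ^ 2 * a₁ ^ 2 * a₆ + c * a₄ + c * a₄ * a₆ + c * a₃ ^ 2 * a₄ + c * a₁ * a₃ + 2 * c * a₁ * a₃ * a₆ + 2 * a₆ + 2 * a₆ ^ 2 + a₃ ^ 2 + a₃ ^ 2 * a₆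

/-- value of the derivative of the numerator at `c` -/
def ndVal (a₁ a₂ a₃ a₄ a₆ c : ZMod 3) : ZMod 3 := 7 * c ^ 6 + 12 * c ^ 5 + 5 * c ^ 4 + 5 * c ^ 4 * a₂ + 5 * c ^ 4 * a₁ ^ 2 + 4 * c ^ 3 * a₄ + 8 * c ^ 3 * a₂ + 8 * c ^ 3 * a₂ ^ 2 + 8 * c ^ 3 * a₁ * a₃ + 4 * c ^ 3 * a₁ ^ 2 + 4 * c ^ 3 * a₁ ^ 2 * a₂ + 3 * c ^ 2 * a₆ + 3 * c ^ 2 * a₄ + 3 * c ^ 2 * a₃ ^ 2 + 3 * c ^ 2 * a₂ * a₄ + 3 * c ^ 2 * a₁ * a₃ + 6 * c ^ 2 * a₁ * a₂ * a₃ + 3 * c ^ 2 * a₁ ^ 2 * a₄ + 4 * c * a₄ ^ 2 + 2 * c * a₂ * a₆ + 2 * c * a₂ * a₃ ^ 2 + 4 * c * a₁ * a₃ * a₄ + 2 * c * a₁ ^ 2 * a₆ + a₄ + a₄ * a₆ + a₃ ^ 2 * a₄ + a₁ * a₃ + 2 * a₁ * a₃ * a₆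

/-- number of points above `c` -/
def nPts (a₁ a₂ a₃ a₄ a₆ c : ZMod 3) : ℕ :=
  (Finset.univ.filter fun y : ZMod 3 =>
    y ^ 2 + a₁ * c * y + a₃ * y = c ^ 3 + a₂ * c ^ 2 + a₄ * c + a₆).card

theorem eval_maninN (c : ZMod 3) :
    (maninN W (sP W) (tP W)).eval c = nVal W.a₁ W.a₂ W.a₃ W.a₄ W.a₆ c := by
  rw [maninN_eq, nExp, nVal]
  simp only [eval_add, eval_mul, eval_pow, eval_X, eval_C, eval_ofNat]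
  try ring

theorem eval_derivative_maninN (c : ZMod 3) :
    (derivative (maninN W (sP W) (tP W))).eval c = ndVal W.a₁ W.a₂ W.a₃ W.a₄ W.a₆ c := by
  rw [maninN_eq, nExp, ndVal]
  simp only [derivative_add, derivative_mul, derivative_X_pow, derivative_X, derivative_C,
    derivative_ofNat, eval_add, eval_mul, eval_pow, eval_X, eval_C, eval_ofNat, eval_natCast,
    eval_zero, eval_one, derivative_pow]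
  try simp
  try ring

/-- the finite check: local behaviour of the numerator at the points of `𝔽_3` -/
theorem local_check : ∀ a₁ a₂ a₃ a₄ a₆ c : ZMod 3,
    (⟨a₁, a₂, a₃, a₄, a₆⟩ : WeierstrassCurve (ZMod 3)).Δ ≠ 0 →
      nPts a₁ a₂ a₃ a₄ a₆ c ≤ 2 ∧
      (nPts a₁ a₂ a₃ a₄ a₆ c = 2 → nVal a₁ a₂ a₃ a₄ a₆ c ≠ 0) ∧
      (nPts a₁ a₂ a₃ a₄ a₆ c = 1 →
        nVal a₁ a₂ a₃ a₄ a₆ c = 0 ∧ ndVal a₁ a₂ a₃ a₄ a₆ c ≠ 0) ∧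
      (nPts a₁ a₂ a₃ a₄ a₆ c = 0 →
        nVal a₁ a₂ a₃ a₄ a₆ c = 0 ∧ ndVal a₁ a₂ a₃ a₄ a₆ c = 0) := by
  decide

/-- **Manin's count**: `deg x(Φ P₀ - P₀) = #E(𝔽_3)`. -/
theorem ratDeg_maninR (hΔ : W.Δ ≠ 0) : H621.ratDeg (maninR W (sP W) (tP W)) = W.card := by
  have hloc : ∀ c : ZMod 3,
      nPts W.a₁ W.a₂ W.a₃ W.a₄ W.a₆ c ≤ 2 ∧
      (nPts W.a₁ W.a₂ W.a₃ W.a₄ W.a₆ c = 2 → nVal W.a₁ W.a₂ W.a₃ W.a₄ W.a₆ c ≠ 0) ∧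
      (nPts W.a₁ W.a₂ W.a₃ W.a₄ W.a₆ c = 1 →
        nVal W.a₁ W.a₂ W.a₃ W.a₄ W.a₆ c = 0 ∧ ndVal W.a₁ W.a₂ W.a₃ W.a₄ W.a₆ c ≠ 0) ∧
      (nPts W.a₁ W.a₂ W.a₃ W.a₄ W.a₆ c = 0 →
        nVal W.a₁ W.a₂ W.a₃ W.a₄ W.a₆ c = 0 ∧ ndVal W.a₁ W.a₂ W.a₃ W.a₄ W.a₆ c = 0) :=
    fun c => local_check W.a₁ W.a₂ W.a₃ W.a₄ W.a₆ c hΔ
  rw [card_eq_sum 3 W hΔ, maninR, maninD, ZMod.card]
  refine ratDeg_eq_of_local (n := fun c => nPts W.a₁ W.a₂ W.a₃ W.a₄ W.a₆ c)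
    (natDegree_maninN W) (fun c => (hloc c).1) ?_ ?_ ?_
  · intro c hc
    rw [eval_maninN]
    exact (hloc c).2.1 hc
  · intro c hc
    rw [eval_maninN, eval_derivative_maninN]
    exact (hloc c).2.2.1 hc
  · intro c hc
    rw [eval_maninN, eval_derivative_maninN]
    exact (hloc c).2.2.2 hc

/-- **The Hasse-Weil Frobenius relation over `𝔽_3`**, every Weierstrass curve with `Δ ≠ 0`. -/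
theorem frobRelationFin_three (E : WeierstrassCurve (ZMod 3)) (hΔ : E.Δ ≠ 0)
    (k : Type) [Field k] [Algebra (ZMod 3) k] [DecidableEq k] (P : (E⁄k).Point) :
    haveI : Fact (Nat.Prime 3) := ⟨by norm_num⟩
    Fermat.Agent.Lib.Frob.frobPt 3 E k (Fermat.Agent.Lib.Frob.frobPt 3 E k P)
      - E.traceOfFrobenius • Fermat.Agent.Lib.Frob.frobPt 3 E k P + ((3 : ℕ) : ℤ) • P = 0 := by
  classical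
  have key := frobPsi_eq_zero_of_data hΔ (isManinData E) P
  rw [ratDeg_maninR E hΔ, H230.frobPsi_apply, ZMod.card] at key
  have htr : ((3 : ℕ) : ℤ) + 1 - (E.card : ℤ) = E.traceOfFrobenius := by
    rw [WeierstrassCurve.traceOfFrobenius, Nat.card_zmod]
  rw [htr] at key
  exact key

end Fermat.Agent.Lib.Frob23.Three
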