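import Fermat.Agent.Lib.Frob23.Two
import Fermat.Agent.Lib.Frob23.Three
import Fermat.Agent.Lib.Frob.A1.Main
import Fermat.Agent.Lib.Frob.A2.Main
import Fermat.Agent.Lib.Frob.Glue

/-!
# Shared library `Frob23`: the Frobenius relation at ALL primes (helper472)

`Lib/Frob` proves `σ² − a_ℓ σ + ℓ = 0` for primes `ℓ ≥ 5`.  This file removes the restriction:

* `frobRelationFinAll` : over `𝔽_ℓ`, any prime `ℓ`, any long Weierstrass curve with `Δ ≠ 0`,
  any field `k ⊇ 𝔽_ℓ`:  `Φ² − a Φ + ℓ = 0` on `E(k)`;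
* `frobRelationAll` : for an integral Weierstrass model `W`, a prime `ℓ ∤ Δ(W)`, a valuation
  subring `A` of `ℚ̄` over `ℓ`, a Frobenius element `σ` at `A` and a point `P ∈ W(ℚ̄)` killed by
  some `n > 0` prime to `ℓ`:  `σ² P − a_ℓ(W) σ P + ℓ P = 0`.

The new cases `ℓ = 2, 3` are `Two.frobRelationFin_two`, `Three.frobRelationFin_three` (Manin's
exact-height argument in long Weierstrass form, on the subgroup of points anti-invariant under
the hyperelliptic involution of the function field).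
-/

set_option autoImplicit false

open WeierstrassCurve WeierstrassCurve.Affine WeierstrassCurve.Affine.Point

namespace Fermat.Agent.Lib.Frob23

open Fermat.Agent.Lib.Frob

/-- **The Hasse–Weil Frobenius relation over `𝔽_ℓ`, every prime `ℓ`.** -/
theorem frobRelationFinAll (ℓ : ℕ) [Fact ℓ.Prime] (E : WeierstrassCurve (ZMod ℓ)) (hΔ : E.Δ ≠ 0)
    (k : Type) [Field k] [Algebra (ZMod ℓ) k] [DecidableEq k] (P : (E⁄k).Point) :
    frobPt ℓ E k (frobPt ℓ E k P) - E.traceOfFrobenius • frobPt ℓ E k P + (ℓ : ℤ) • P = 0 := by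
  by_cases h5 : 5 ≤ ℓ
  · exact frobRelationFin ℓ h5 E hΔ k P
  · have hp : ℓ.Prime := Fact.out
    have h23 : ℓ = 2 ∨ ℓ = 3 := by
      have h2 := hp.two_le
      have h4 : ℓ ≠ 4 := by
        rintro rfl
        exact absurd hp (by norm_num)
      omega
    rcases h23 with h | h
    · subst h
      exact Two.frobRelationFin_two E hΔ k P
    · subst h
      exact Three.frobRelationFin_three E hΔ k P

/-- **The Frobenius relation on prime-to-`ℓ` torsion of `W(ℚ̄)`, every prime `ℓ` of good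
reduction.** -/
theorem frobRelationAll (W : WeierstrassCurve ℤ) (ℓ : ℕ) (hℓ : ℓ.Prime)
    (hgood : W.IsGoodPrimeFor ℓ) (A : ValuationSubring Qb) (σ : Qb ≃ₐ[ℚ] Qb)
    (hA : A.LiesOverPrime ℓ) (hσ : A.IsFrobeniusAt σ ℓ) (n : ℕ) (hn : 0 < n) (hℓn : ¬ ℓ ∣ n)
    (P : Pts W) (hP : n • P = 0) :
    σ • σ • P - W.apOfModel ℓ • σ • P + (ℓ : ℤ) • P = 0 := by
  have : Fact ℓ.Prime := ⟨hℓ⟩
  obtain ⟨k, hk1, hk2, hk3, red, hinj, hcomm⟩ := reductionData W ℓ hgood A σ hA hσ n hn hℓn
  have hmem : P ∈ Submodule.torsionBy ℤ (Pts W) n := by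
    rw [Submodule.mem_torsionBy_iff]
    rw [← hP]
    exact (natCast_zsmul P n)
  set P' : Submodule.torsionBy ℤ (Pts W) n := ⟨P, hmem⟩ with hP'
  have key : σ • σ • P' - W.apOfModel ℓ • σ • P' + (ℓ : ℤ) • P' = 0 := by
    apply hinj
    rw [_root_.map_zero, map_add, map_sub, map_zsmul, map_zsmul, hcomm, hcomm]
    exact frobRelationFinAll ℓ (W.reductionMod ℓ) (reductionMod_Δ_ne_zero W ℓ hgood) k (red P')
  have h2 := congrArg Subtype.val key
  simp only [Submodule.coe_add, Submodule.coe_sub, Submodule.coe_smul_of_tower,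
    coe_galois_smul_torsion, ZeroMemClass.coe_zero] at h2
  exact h2

end Fermat.Agent.Lib.Frob23
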