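import Fermat.Agent.Lib.Frob23.Invol
import Fermat.Agent.S52.H127.QuadForm

/-!
# Manin's exact-height argument in long Weierstrass form, any characteristic (helper472)

`F` a finite field with `q` elements, `W` a Weierstrass curve over `F` with `Δ ≠ 0`.
On the subgroup `antiSub W` of `W(KK W)` of points anti-invariant under the hyperelliptic
involution:

* the exact degree height `H311.hgt` satisfies the parallelogram law;
* `h (Φ Q) = q · h Q`;
* given polynomials `s, t` with `V^q - negY U V = s(U) V + t(U)` on the curve and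
  `2 t - s (a₁ X + a₃) + a₁ (X^q - X) = 0`, the `x`-coordinate of `Φ Q - Q` is Manin's function
  `maninR = N / (X^q - X)²`, `N = s² g + s t L - t² - (a₂ + X^q + X)(X^q - X)²`, of `x(Q)`, hence
  `h (Φ Q - Q) = ratDeg maninR · h Q`;
* consequently `Φ² - a Φ + q = 0` on `W(L)` for every field `L ⊇ F`, with
  `a = q + 1 - ratDeg maninR`  (`frobPsi_eq_zero_of_data`).
-/

set_option autoImplicit false
set_option linter.unusedSectionVars false

open WeierstrassCurve Polynomial
open scoped Polynomial.Bivariate WeierstrassCurve.Affine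

namespace Fermat.Agent.Lib.Frob23

open Fermat.Agent.Lib.FrobRel Fermat.Agent.S52

universe u

variable {F : Type u} [Field F] (W : WeierstrassCurve F) [DecidableEq (KK W)]

/-- the action of the hyperelliptic involution on points -/
noncomputable def involPt : (W⁄(KK W)).Point →+ (W⁄(KK W)).Point :=
  Affine.Point.map (W' := W) (S := F) (invol W)

/-- **The Manin subgroup**: points anti-invariant under the hyperelliptic involution. -/
noncomputable def antiSub : AddSubgroup (W⁄(KK W)).Point :=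
  (involPt W + AddMonoidHom.id _).ker

variable {W}

lemma mem_antiSub {P : (W⁄(KK W)).Point} : P ∈ antiSub W ↔ involPt W P = -P := by
  rw [antiSub, AddMonoidHom.mem_ker, AddMonoidHom.add_apply, AddMonoidHom.id_apply,
    add_eq_zero_iff_eq_neg]

lemma involPt_some {x y : KK W} (h : (W⁄(KK W)).Nonsingular x y) :
    ∃ h' : (W⁄(KK W)).Nonsingular (invol W x) (invol W y),
      involPt W (Affine.Point.some x y h) = Affine.Point.some (invol W x) (invol W y) h' :=
  ⟨_, rfl⟩

lemma invol_x_of_mem {x y : KK W} {h : (W⁄(KK W)).Nonsingular x y}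
    (hP : Affine.Point.some x y h ∈ antiSub W) : invol W x = x := by
  rw [mem_antiSub] at hP
  obtain ⟨h', e⟩ := involPt_some h
  rw [e, Affine.Point.neg_some] at hP
  exact ((Affine.Point.some.injEq ..).mp hP).1

variable (W) in
lemma generic_mem_antiSub (hΔ : (W⁄F).Δ ≠ 0) : H230.genericPoint W F hΔ ∈ antiSub W := by
  rw [mem_antiSub, H230.genericPoint, Affine.Point.neg_some]
  obtain ⟨h', e⟩ := involPt_some (H230.generic_nonsingular W F hΔ)
  rw [e]
  congr 1
  · exact invol_gx W
  · rw [invol, H230.sigma_gy]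

/-! ### The height on the Manin subgroup -/

lemma isXRep_of_x {x y : KK W} (h : (W⁄(KK W)).Nonsingular x y) (u : RatFunc F)
    (hx : x = iR W u) :
    H311.IsXRep (jX W) (Affine.Point.some x y h) u.num u.denom := by
  refine H311.isXRep_some h u.isCoprime_num_denom ?_ ?_
  · exact (map_ne_zero_iff _ (jX_injective W)).mpr u.denom_ne_zero
  · rw [hx, ← iR_algebraMap, ← iR_algebraMap, ← map_mul]
    congr 1
    have hd : algebraMap F[X] (RatFunc F) u.denom ≠ 0 :=
      RatFunc.algebraMap_ne_zero u.denom_ne_zero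
    have := RatFunc.num_div_denom u
    rw [div_eq_iff hd] at this
    exact this.symm

lemma hgt_of_x {x y : KK W} (h : (W⁄(KK W)).Nonsingular x y) (u : RatFunc F)
    (hx : x = iR W u) :
    H311.hgt (jX W) (Affine.Point.some x y h) = H621.ratDeg u := by
  rw [H311.hgt_eq (jX_injective W) (isXRep_of_x h u hx)]
  rfl

lemma hgt_zero' : H311.hgt (jX W) (0 : (W⁄(KK W)).Point) = 0 :=
  H311.hgt_zero (jX_injective W)

/-- points of the Manin subgroup are `O` or have `x`-coordinate in `F(X)` -/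
lemma eq_zero_or_of_mem (hΔ : W.Δ ≠ 0) {P : (W⁄(KK W)).Point} (hP : P ∈ antiSub W) :
    P = 0 ∨ ∃ (u : RatFunc F) (y : KK W) (h : (W⁄(KK W)).Nonsingular (iR W u) y),
      P = Affine.Point.some (iR W u) y h := by
  rcases P with _ | ⟨x, y, h⟩
  · exact Or.inl rfl
  · right
    obtain ⟨u, hu⟩ := exists_iR_eq_of_invol_eq W hΔ x (invol_x_of_mem hP)
    subst hu
    exact ⟨u, y, h, rfl⟩

lemma exists_isXRep_of_mem (hΔ : W.Δ ≠ 0) {P : (W⁄(KK W)).Point} (hP : P ∈ antiSub W) :
    ∃ a b, H311.IsXRep (jX W) P a b := by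
  rcases eq_zero_or_of_mem hΔ hP with rfl | ⟨u, y, h, rfl⟩
  · exact ⟨1, 0, H311.isXRep_zero⟩
  · exact ⟨_, _, isXRep_of_x h u rfl⟩

/-- **Exact parallelogram law on the Manin subgroup.** -/
theorem hgt_parallelogram (hΔ : W.Δ ≠ 0) {P Q : (W⁄(KK W)).Point}
    (hP : P ∈ antiSub W) (hQ : Q ∈ antiSub W) :
    H311.hgt (jX W) (P + Q) + H311.hgt (jX W) (P - Q)
      = 2 * H311.hgt (jX W) P + 2 * H311.hgt (jX W) Q := by
  have : W.IsElliptic := ⟨isUnit_iff_ne_zero.mpr hΔ⟩
  exact H311.hgt_add_sub (W := W) (jX_injective W) (exists_isXRep_of_mem hΔ hP)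
    (exists_isXRep_of_mem hΔ hQ) (exists_isXRep_of_mem hΔ ((antiSub W).add_mem hP hQ))
    (exists_isXRep_of_mem hΔ ((antiSub W).sub_mem hP hQ))

/-- height zero on the Manin subgroup means constant -/
lemma isConstPt_of_hgt_eq_zero (hΔ : W.Δ ≠ 0) {P : (W⁄(KK W)).Point} (hP : P ∈ antiSub W)
    (h0 : H311.hgt (jX W) P = 0) : H230.IsConstPt W P := by
  rcases eq_zero_or_of_mem hΔ hP with rfl | ⟨u, y, h, rfl⟩
  · exact Or.inl rfl
  · right
    rw [hgt_of_x h u rfl] at h0
    obtain ⟨c, rfl⟩ := (H621.ratDeg_eq_zero_iff u).mp h0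
    refine ⟨_, _, h, rfl, ?_⟩
    rw [iR_C]
    exact isAlgebraic_algebraMap c

/-! ### Frobenius -/

section Frob

variable [Fintype F]

lemma frobPt_some_eq {x y : KK W} (h : (W⁄(KK W)).Nonsingular x y) :
    ∃ h' : (W⁄(KK W)).Nonsingular (x ^ Fintype.card F) (y ^ Fintype.card F),
      H230.frobPt W (KK W) (Affine.Point.some x y h)
        = Affine.Point.some (x ^ Fintype.card F) (y ^ Fintype.card F) h' :=
  ⟨_, H230.frobPt_some W (KK W) h⟩

/-- `Φ` preserves the Manin subgroup -/
lemma frob_mem {P : (W⁄(KK W)).Point} (hP : P ∈ antiSub W) :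
    H230.frobPt W (KK W) P ∈ antiSub W := by
  rw [mem_antiSub] at hP ⊢
  rw [involPt, ← H230.frobPt_map, ← map_neg]
  exact congrArg _ hP

/-- Frobenius restricted to the Manin subgroup -/
noncomputable def frobM : antiSub W →+ antiSub W :=
  AddMonoidHom.codRestrict ((H230.frobPt W (KK W)).comp (antiSub W).subtype) (antiSub W)
    (fun P => frob_mem P.2)

lemma coe_frobM (P : antiSub W) :
    ((frobM P : antiSub W) : (W⁄(KK W)).Point) = H230.frobPt W (KK W) P := rfl

/-- `h (Φ Q) = q · h Q` on the Manin subgroup -/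
lemma hgt_frob (hΔ : W.Δ ≠ 0) {P : (W⁄(KK W)).Point} (hP : P ∈ antiSub W) :
    H311.hgt (jX W) (H230.frobPt W (KK W) P) = Fintype.card F * H311.hgt (jX W) P := by
  rcases eq_zero_or_of_mem hΔ hP with rfl | ⟨u, y, h, rfl⟩
  · rw [map_zero, hgt_zero', mul_zero]
  · obtain ⟨h', e⟩ := frobPt_some_eq h
    rw [e, hgt_of_x h' (u ^ Fintype.card F) (by rw [map_pow]), hgt_of_x h u rfl, H621.ratDeg_pow]

/-! ### Manin's function -/

variable (W) in
/-- numerator of Manin's function attached to the data `s`, `t` -/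
noncomputable def maninN (s t : F[X]) : F[X] :=
  s ^ 2 * cubP W + s * t * linP W - t ^ 2
    - (C W.a₂ + X ^ Fintype.card F + X) * (X ^ Fintype.card F - X) ^ 2

variable (F) in
/-- denominator of Manin's function -/
noncomputable def maninD : F[X] := (X ^ Fintype.card F - X) ^ 2

variable (W) in
/-- Manin's function `x(Φ P₀ - P₀)` -/
noncomputable def maninR (s t : F[X]) : RatFunc F :=
  algebraMap F[X] (RatFunc F) (maninN W s t) / algebraMap F[X] (RatFunc F) (maninD F)

lemma maninD_ne_zero : maninD F ≠ 0 :=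
  pow_ne_zero 2 (FiniteField.X_pow_card_sub_X_ne_zero F Fintype.one_lt_card)

lemma pow_card_ne_self {u : RatFunc F} (hu : H621.ratDeg u ≠ 0) : u ^ Fintype.card F ≠ u := by
  intro h
  have htr : Transcendental F u := by
    apply RatFunc.transcendental_of_ne_C
    rintro ⟨c, hc⟩
    exact hu ((H621.ratDeg_eq_zero_iff u).mpr ⟨c, hc⟩)
  have h0 : aeval u (X ^ Fintype.card F - X : F[X]) = 0 := by
    simp [h]
  exact FiniteField.X_pow_card_sub_X_ne_zero F Fintype.one_lt_card
    ((transcendental_iff.mp htr) _ h0)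

/-- The data `(s, t)`: `V^q - negY U V = s(U) V + t(U)` on the curve (over the function field),
and the trace identity `2 t - s L + a₁ (X^q - X) = 0`. -/
structure IsManinData (W : WeierstrassCurve F) (s t : F[X]) : Prop where
  pow_eq : ∀ (U V : KK W), (W⁄(KK W)).Equation U V →
    V ^ Fintype.card F + V + ((W⁄(KK W)).a₁ * U + (W⁄(KK W)).a₃) = aeval U s * V + aeval U t
  trace_eq : 2 * t - s * linP W + C W.a₁ * (X ^ Fintype.card F - X) = 0

lemma aeval_iR (u : RatFunc F) (p : F[X]) : aeval (iR W u) p = iR W (aeval u p) :=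
  (Polynomial.aeval_algHom_apply (iR W) u p)

/-- the `x`-coordinate of `Φ Q - Q` is Manin's function of the `x`-coordinate of `Q` -/
lemma hgt_frob_sub_of_ne {s t : F[X]} (hst : IsManinData W s t)
    {u : RatFunc F} {y : KK W} (h : (W⁄(KK W)).Nonsingular (iR W u) y)
    (hu : H621.ratDeg u ≠ 0) :
    H311.hgt (jX W) (H230.frobPt W (KK W) (Affine.Point.some _ _ h) - Affine.Point.some _ _ h)
      = H621.ratDeg (maninR W s t) * H621.ratDeg u := by
  obtain ⟨h', e⟩ := frobPt_some_eq h
  have hne : u ^ Fintype.card F ≠ u := pow_card_ne_self hu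
  have hx : (iR W u) ^ Fintype.card F ≠ iR W u := by
    rw [← map_pow]
    exact fun h => hne (iR_injective W h)
  have hsub : (iR W u) ^ Fintype.card F - iR W u ≠ 0 := sub_ne_zero.mpr hx
  rw [e, sub_eq_add_neg, Affine.Point.neg_some, Affine.Point.add_of_X_ne hx]
  rw [hgt_of_x _ (aeval u (maninN W s t) / aeval u (maninD F)) ?_,
    H621.ratDeg_comp _ _ maninD_ne_zero]
  · rfl
  · have hE := (Affine.equation_iff _ _).mp h.1
    have h1 := hst.pow_eq _ _ h.1
    have h2 := congrArg (fun p : F[X] => aeval (iR W u) p) hst.trace_eq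
    simp only [map_add, map_sub, map_mul, map_pow, aeval_X, aeval_C, map_ofNat, map_zero,
      linP] at h2
    rw [map_div₀, ← aeval_iR, ← aeval_iR, Affine.addX, Affine.negY,
      Affine.slope_of_X_ne hx]
    simp only [maninN, maninD, cubP, linP, map_add, map_sub, map_mul, map_pow, aeval_X, aeval_C]
    rw [← bc_a₁ W (KK W), ← bc_a₂ W (KK W), ← bc_a₃ W (KK W), ← bc_a₄ W (KK W),
      ← bc_a₆ W (KK W)] at *
    generalize aeval (iR W u) s = S at h1 h2 ⊢
    generalize aeval (iR W u) t = T at h1 h2 ⊢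
    generalize (iR W u) ^ Fintype.card F = Up at hsub h2 ⊢
    generalize y ^ Fintype.card F = Yp at h1 ⊢
    generalize iR W u = U at hsub hE h1 h2 ⊢
    have hYp : Yp - (-y - (W⁄(KK W)).a₁ * U - (W⁄(KK W)).a₃) = S * y + T := by
      linear_combination h1
    rw [hYp]
    field_simp
    linear_combination (S ^ 2) * hE + (S * y + T) * h2

/-- `h (Φ Q - Q) = N · h Q` on the Manin subgroup -/
lemma hgt_frob_sub (hΔ : W.Δ ≠ 0) {s t : F[X]} (hst : IsManinData W s t)
    {P : (W⁄(KK W)).Point} (hP : P ∈ antiSub W) :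
    H311.hgt (jX W) (H230.frobPt W (KK W) P - P)
      = H621.ratDeg (maninR W s t) * H311.hgt (jX W) P := by
  by_cases h0 : H311.hgt (jX W) P = 0
  · have hpar := hgt_parallelogram hΔ (frob_mem hP) hP
    rw [hgt_frob hΔ hP, h0] at hpar
    rw [h0, mul_zero]
    omega
  · rcases eq_zero_or_of_mem hΔ hP with rfl | ⟨u, y, h, rfl⟩
    · exact absurd hgt_zero' h0
    · have hu : H621.ratDeg u ≠ 0 := by
        rwa [hgt_of_x h u rfl] at h0
      rw [hgt_frob_sub_of_ne hst h hu, hgt_of_x h u rfl]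

/-- **Frobenius relation from Manin data.**  For every field `L ⊇ F`:
`Φ² - a Φ + q = 0` on `W(L)`, where `a = q + 1 - deg (Manin's function)`. -/
theorem frobPsi_eq_zero_of_data (hΔ : W.Δ ≠ 0) {s t : F[X]} (hst : IsManinData W s t)
    {L : Type*} [Field L] [Algebra F L] [DecidableEq L] (T : (W⁄L).Point) :
    H230.frobPsi W L ((Fintype.card F : ℤ) + 1 - (H621.ratDeg (maninR W s t) : ℤ)) T = 0 := by
  have hΔF : (W⁄F).Δ ≠ 0 := H230.baseChange_Δ_ne_zero' W hΔ F
  let h : antiSub W → ℕ := fun Q => H311.hgt (jX W) (Q : (W⁄(KK W)).Point)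
  have hpar : H127.IsParNat h := fun Q R => hgt_parallelogram hΔ Q.2 R.2
  have hΦ : ∀ Q : antiSub W, h (frobM Q) = Fintype.card F * h Q := fun Q => hgt_frob hΔ Q.2
  have hΦ1 : ∀ Q : antiSub W, h (frobM Q - Q) = H621.ratDeg (maninR W s t) * h Q :=
    fun Q => hgt_frob_sub hΔ hst Q.2
  have key := hpar.frobenius_relation frobM (Fintype.card F) (H621.ratDeg (maninR W s t))
    hΦ hΦ1 ⟨H230.genericPoint W F hΔF, generic_mem_antiSub W hΔF⟩
  set a : ℤ := (Fintype.card F : ℤ) + 1 - (H621.ratDeg (maninR W s t) : ℤ) with ha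
  have hcoe : (((frobM (frobM ⟨H230.genericPoint W F hΔF, generic_mem_antiSub W hΔF⟩)
      - a • frobM ⟨H230.genericPoint W F hΔF, generic_mem_antiSub W hΔF⟩
      + Fintype.card F • (⟨H230.genericPoint W F hΔF, generic_mem_antiSub W hΔF⟩ : antiSub W)
        : antiSub W)) : (W⁄(KK W)).Point)
      = H230.frobPsi W (KK W) a (H230.genericPoint W F hΔF) := by
    rw [H230.frobPsi_apply, natCast_zsmul]
    rfl
  have hC : H230.IsConstPt W (H230.frobPsi W (KK W) a (H230.genericPoint W F hΔF)) := by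
    rw [← hcoe]
    exact isConstPt_of_hgt_eq_zero hΔ (Subtype.property _) key
  exact H230.frobPsi_eq_zero W hΔ (H230.generic_nonsingular W F hΔF)
    (H230.gx_transcendental W F) a hC T

end Frob

end Fermat.Agent.Lib.Frob23
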