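import Fermat.Agent.Lib.Frob23.ManinSub
import Fermat.Agent.Lib.Frob23.Count
import Fermat.Agent.Lib.Frob.Interfaces

/-!
# The Hasse-Weil Frobenius relation over `𝔽_2` (helper472; generated by `gen_small.py`)

For every Weierstrass curve `E` over `ZMod 2` with `Δ ≠ 0` (long Weierstrass form) and every field
`k ⊇ 𝔽_2`:  `Φ² - a Φ + 2 = 0` on `E(k)`, `a = 2 + 1 - #E(𝔽_2)`  (`frobRelationFin_two`).

Manin data: `s = 1 - linP W`, `t = cubP W + linP W` (`L = a₁ X + a₃`, `g = X³ + a₂ X² + a₄ X + a₆`).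
-/

set_option autoImplicit false
set_option linter.unusedSectionVars false
set_option linter.unusedVariables false
set_option linter.unusedSimpArgs false

open WeierstrassCurve Polynomial
open scoped Polynomial.Bivariate WeierstrassCurve.Affine

namespace Fermat.Agent.Lib.Frob23.Two

open Fermat.Agent.Lib.FrobRel Fermat.Agent.S52 Fermat.Agent.Lib.Frob23

variable (W : WeierstrassCurve (ZMod 2))

/-- the Manin datum `s` -/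
noncomputable def sP : (ZMod 2)[X] := 1 - linP W

/-- the Manin datum `t` -/
noncomputable def tP : (ZMod 2)[X] := cubP W + linP W

/-- the expanded numerator of Manin's function -/
noncomputable def nExp : (ZMod 2)[X] := X ^ 5 + X ^ 4 + X ^ 4 * C W.a₁ + X ^ 3 * C W.a₃ + X ^ 3 * C W.a₁ + X ^ 3 * C W.a₁ * C W.a₂ + X ^ 2 * C W.a₄ + X ^ 2 * C W.a₂ * C W.a₃ + X ^ 2 * C W.a₁ * C W.a₄ + X ^ 2 * C W.a₁ * C W.a₃ + X * C W.a₄ + X * C W.a₃ * C W.a₄ + X * C W.a₁ * C W.a₆ + X * C W.a₁ * C W.a₃ + C W.a₃ + C W.a₃ * C W.a₆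

/-- the lower part of the expanded numerator -/
noncomputable def nLow : (ZMod 2)[X] := X ^ 4 + X ^ 4 * C W.a₁ + X ^ 3 * C W.a₃ + X ^ 3 * C W.a₁ + X ^ 3 * C W.a₁ * C W.a₂ + X ^ 2 * C W.a₄ + X ^ 2 * C W.a₂ * C W.a₃ + X ^ 2 * C W.a₁ * C W.a₄ + X ^ 2 * C W.a₁ * C W.a₃ + X * C W.a₄ + X * C W.a₃ * C W.a₄ + X * C W.a₁ * C W.a₆ + X * C W.a₁ * C W.a₃ + C W.a₃ + C W.a₃ * C W.a₆

lemma char_poly : ((2 : ℕ) : (ZMod 2)[X]) = 0 := CharP.cast_eq_zero _ _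

lemma C_pow_card (a : ZMod 2) : (C a : (ZMod 2)[X]) ^ 2 = C a := by
  rw [← C_pow, ZMod.pow_card]

theorem isManinData [DecidableEq (KK W)] : IsManinData W (sP W) (tP W) where
  pow_eq := by
    intro U V h
    have hE := (Affine.equation_iff _ _).mp h
    rw [ZMod.card]
    simp only [sP, tP, linP, cubP, map_add, map_sub, map_mul, map_pow, map_one, aeval_X, aeval_C]
    rw [← bc_a₁ W (KK W), ← bc_a₂ W (KK W), ← bc_a₃ W (KK W), ← bc_a₄ W (KK W),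
      ← bc_a₆ W (KK W)]
    linear_combination hE
  trace_eq := by
    have hl : ((2 : ℕ) : (ZMod 2)[X]) = 0 := char_poly
    have hA1 := C_pow_card W.a₁
    have hA2 := C_pow_card W.a₂
    have hA3 := C_pow_card W.a₃
    have hA4 := C_pow_card W.a₄
    have hA6 := C_pow_card W.a₆
    rw [ZMod.card]
    simp only [sP, tP, linP, cubP]
    push_cast at hl
    linear_combination (exp := 1) (X ^ 3 + X ^ 2 * C W.a₂ + X ^ 2 * C W.a₁ + X * C W.a₄ + X * C W.a₁ * C W.a₃ + C W.a₆ + C W.a₃) * hl + (X ^ 2) * hA1 + (1) * hA3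

theorem maninN_eq : maninN W (sP W) (tP W) = nExp W := by
  have hl : ((2 : ℕ) : (ZMod 2)[X]) = 0 := char_poly
  have hA1 := C_pow_card W.a₁
  have hA2 := C_pow_card W.a₂
  have hA3 := C_pow_card W.a₃
  have hA4 := C_pow_card W.a₄
  have hA6 := C_pow_card W.a₆
  rw [maninN, ZMod.card]
  simp only [sP, tP, linP, cubP, nExp]
  push_cast at hl
  linear_combination (exp := 1) (-X ^ 6 - X ^ 5 * C W.a₂ - X ^ 4 * C W.a₄ - X ^ 4 * C W.a₂ - 2 * X ^ 4 * C W.a₁ - X ^ 3 * C W.a₆ - 2 * X ^ 3 * C W.a₃ + X ^ 3 * C W.a₂ - X ^ 3 * C W.a₂ * C W.a₄ - X ^ 3 * C W.a₁ - 2 * X ^ 3 * C W.a₁ * C W.a₂ - X ^ 2 * C W.a₄ - X ^ 2 * C W.a₂ * C W.a₆ - 2 * X ^ 2 * C W.a₂ * C W.a₃ - 2 * X ^ 2 * C W.a₁ * C W.a₄ - 2 * X ^ 2 * C W.a₁ * C W.a₃ - X * C W.a₄ * C W.a₆ - 2 * X * C W.a₃ * C W.a₄ - 2 * X * C W.a₁ * C W.a₆ - 2 * X * C W.a₁ * C W.a₃ - C W.a₃ - 2 * C W.a₃ * C W.a₆)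 * hl + (-X ^ 3 - X ^ 3 * C W.a₁ - 3 * X ^ 2 * C W.a₃) * hA1 + (-X ^ 4) * hA2 + (-3 * X * C W.a₁ - 1 - C W.a₃) * hA3 + (-X ^ 2) * hA4 + (-1) * hA6

theorem nExp_eq : nExp W = X ^ 5 + nLow W := by
  simp only [nExp, nLow]
  ring

theorem natDegree_nLow : (nLow W).natDegree < 5 := by
  have : (nLow W).natDegree ≤ 4 := by
    unfold nLow
    compute_degree
  omega

theorem natDegree_maninN : (maninN W (sP W) (tP W)).natDegree = 2 * 2 + 1 := by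
  rw [maninN_eq, nExp_eq, natDegree_add_eq_left_of_natDegree_lt (by
    rw [natDegree_X_pow]; exact natDegree_nLow W), natDegree_X_pow]

/-- value of the numerator at `c` -/
def nVal (a₁ a₂ a₃ a₄ a₆ c : ZMod 2) : ZMod 2 := c ^ 5 + c ^ 4 + c ^ 4 * a₁ + c ^ 3 * a₃ + c ^ 3 * a₁ + c ^ 3 * a₁ * a₂ + c ^ 2 * a₄ + c ^ 2 * a₂ * a₃ + c ^ 2 * a₁ * a₄ + c ^ 2 * a₁ * a₃ + c * a₄ + c * a₃ * a₄ + c * a₁ * a₆ + c * a₁ * a₃ + a₃ + a₃ * a₆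

/-- value of the derivative of the numerator at `c` -/
def ndVal (a₁ a₂ a₃ a₄ a₆ c : ZMod 2) : ZMod 2 := 5 * c ^ 4 + 4 * c ^ 3 + 4 * c ^ 3 * a₁ + 3 * c ^ 2 * a₃ + 3 * c ^ 2 * a₁ + 3 * c ^ 2 * a₁ * a₂ + 2 * c * a₄ + 2 * c * a₂ * a₃ + 2 * c * a₁ * a₄ + 2 * c * a₁ * a₃ + a₄ + a₃ * a₄ + a₁ * a₆ + a₁ * a₃

/-- number of points above `c` -/
def nPts (a₁ a₂ a₃ a₄ a₆ c : ZMod 2) : ℕ :=
  (Finset.univ.filter fun y : ZMod 2 =>
    y ^ 2 + a₁ * c * y + a₃ * y = c ^ 3 + a₂ * c ^ 2 + a₄ * c + a₆).card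

theorem eval_maninN (c : ZMod 2) :
    (maninN W (sP W) (tP W)).eval c = nVal W.a₁ W.a₂ W.a₃ W.a₄ W.a₆ c := by
  rw [maninN_eq, nExp, nVal]
  simp only [eval_add, eval_mul, eval_pow, eval_X, eval_C, eval_ofNat]
  try ring

theorem eval_derivative_maninN (c : ZMod 2) :
    (derivative (maninN W (sP W) (tP W))).eval c = ndVal W.a₁ W.a₂ W.a₃ W.a₄ W.a₆ c := by
  rw [maninN_eq, nExp, ndVal]
  simp only [derivative_add, derivative_mul, derivative_X_pow, derivative_X, derivative_C,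
    derivative_ofNat, eval_add, eval_mul, eval_pow, eval_X, eval_C, eval_ofNat, eval_natCast,
    eval_zero, eval_one, derivative_pow]
  try simp
  try ring

/-- the finite check: local behaviour of the numerator at the points of `𝔽_2` -/
theorem local_check : ∀ a₁ a₂ a₃ a₄ a₆ c : ZMod 2,
    (⟨a₁, a₂, a₃, a₄, a₆⟩ : WeierstrassCurve (ZMod 2)).Δ ≠ 0 →
      nPts a₁ a₂ a₃ a₄ a₆ c ≤ 2 ∧
      (nPts a₁ a₂ a₃ a₄ a₆ c = 2 → nVal a₁ a₂ a₃ a₄ a₆ c ≠ 0) ∧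
      (nPts a₁ a₂ a₃ a₄ a₆ c = 1 →
        nVal a₁ a₂ a₃ a₄ a₆ c = 0 ∧ ndVal a₁ a₂ a₃ a₄ a₆ c ≠ 0) ∧
      (nPts a₁ a₂ a₃ a₄ a₆ c = 0 →
        nVal a₁ a₂ a₃ a₄ a₆ c = 0 ∧ ndVal a₁ a₂ a₃ a₄ a₆ c = 0) := by
  decide

/-- **Manin's count**: `deg x(Φ P₀ - P₀) = #E(𝔽_2)`. -/
theorem ratDeg_maninR (hΔ : W.Δ ≠ 0) : H621.ratDeg (maninR W (sP W) (tP W)) = W.card := by
  have hloc : ∀ c : ZMod 2,
      nPts W.a₁ W.a₂ W.a₃ W.a₄ W.a₆ c ≤ 2 ∧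
      (nPts W.a₁ W.a₂ W.a₃ W.a₄ W.a₆ c = 2 → nVal W.a₁ W.a₂ W.a₃ W.a₄ W.a₆ c ≠ 0) ∧
      (nPts W.a₁ W.a₂ W.a₃ W.a₄ W.a₆ c = 1 →
        nVal W.a₁ W.a₂ W.a₃ W.a₄ W.a₆ c = 0 ∧ ndVal W.a₁ W.a₂ W.a₃ W.a₄ W.a₆ c ≠ 0) ∧
      (nPts W.a₁ W.a₂ W.a₃ W.a₄ W.a₆ c = 0 →
        nVal W.a₁ W.a₂ W.a₃ W.a₄ W.a₆ c = 0 ∧ ndVal W.a₁ W.a₂ W.a₃ W.a₄ W.a₆ c = 0) :=
    fun c => local_check W.a₁ W.a₂ W.a₃ W.a₄ W.a₆ c hΔ
  rw [card_eq_sum 2 W hΔ, maninR, maninD, ZMod.card]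
  refine ratDeg_eq_of_local (n := fun c => nPts W.a₁ W.a₂ W.a₃ W.a₄ W.a₆ c)
    (natDegree_maninN W) (fun c => (hloc c).1) ?_ ?_ ?_
  · intro c hc
    rw [eval_maninN]
    exact (hloc c).2.1 hc
  · intro c hc
    rw [eval_maninN, eval_derivative_maninN]
    exact (hloc c).2.2.1 hc
  · intro c hc
    rw [eval_maninN, eval_derivative_maninN]
    exact (hloc c).2.2.2 hc

/-- **The Hasse-Weil Frobenius relation over `𝔽_2`**, every Weierstrass curve with `Δ ≠ 0`. -/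
theorem frobRelationFin_two (E : WeierstrassCurve (ZMod 2)) (hΔ : E.Δ ≠ 0)
    (k : Type) [Field k] [Algebra (ZMod 2) k] [DecidableEq k] (P : (E⁄k).Point) :
    haveI : Fact (Nat.Prime 2) := ⟨by norm_num⟩
    Fermat.Agent.Lib.Frob.frobPt 2 E k (Fermat.Agent.Lib.Frob.frobPt 2 E k P)
      - E.traceOfFrobenius • Fermat.Agent.Lib.Frob.frobPt 2 E k P + ((2 : ℕ) : ℤ) • P = 0 := by
  classical
  have key := frobPsi_eq_zero_of_data hΔ (isManinData E) P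
  rw [ratDeg_maninR E hΔ, H230.frobPsi_apply, ZMod.card] at key
  have htr : ((2 : ℕ) : ℤ) + 1 - (E.card : ℤ) = E.traceOfFrobenius := by
    rw [WeierstrassCurve.traceOfFrobenius, Nat.card_zmod]
  rw [htr] at key
  exact key

end Fermat.Agent.Lib.Frob23.Two
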